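import Mathlib
import Fermat.Agent.S18.A.Hurwitz
import Fermat.Agent.S18.B.SeparableFk
import Fermat.Agent.S18.GaussFromHBar
import Fermat.Agent.S37.Hecke.Inputs
import Fermat.Agent.S48.B.Defs.Model

/-!
# PROJECT D (S48), part B, block B4, brick I1: the function-field basics of both fibres, generic

No level in this file.

* `k`-side: `Fk` ANY intermediate field of `k((q)) / k` containing `J(q) = jqModC k`,
  `jC hj : Fk` the element `J(q)`.  `transcendental_jC`; under `[FiniteDimensional k⟮jC hj⟯ Fk]`:
  `isFF_jC`, `isSeparable_jC` (`k` perfect; main's `S18/B/SeparableFk.isSeparable_intermediateField`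
  is generic), `hasPrincipalDivisors_k`, `exists_genus_k` (`k` algebraically closed).
* characteristic zero side: `K` algebraically closed of characteristic zero, `hx : IsFF K x`:
  `isSeparable_of_isFF`, `hasPrincipalDivisors_L`, `exists_genus_L`, `deg_eq_one`.
* `corrInputs_of_isFF` : the hypotheses `Model.CorrInputs φ ψ` of the guarded correspondence
  `Model.corrOp φ ψ`, for any two homomorphisms of function fields over such a `K`.
-/

set_option autoImplicit false

namespace Fermat.Agent.S48.B.Inj.Basics

open AlgebraicCurve ModularCurve IntermediateField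
open Fermat.Agent.S24.FF Fermat.Agent.S18.A
open Fermat.Agent.S18.NonSpecial

/-! ### the fibre over `k` -/

section KSide

variable {k : Type*} [Field k] {Fk : IntermediateField k (LaurentSeries k)}

/-- `J(q)` as an element of `Fk` -/
noncomputable def jC (hj : jqModC k ∈ Fk) : ↥Fk := ⟨jqModC k, hj⟩

theorem coe_jC (hj : jqModC k ∈ Fk) : ((jC hj : ↥Fk) : LaurentSeries k) = jqModC k := rfl

theorem transcendental_jC (hj : jqModC k ∈ Fk) : Transcendental k (jC hj) := by
  rw [transcendental_iff]
  intro p hp
  apply transcendental_iff.mp (Fermat.Agent.S28.ThetaAdjoin.transcendental_jqModC k) p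
  have := congrArg Fk.val hp
  rw [← Polynomial.aeval_algHom_apply, map_zero] at this
  exact this

/-- `J(q)` is a separating variable in the sense of the function-field toolkit -/
theorem isFF_jC (hj : jqModC k ∈ Fk) [hfin : FiniteDimensional k⟮jC hj⟯ ↥Fk] : IsFF k (jC hj) :=
  ⟨transcendental_jC hj, hfin⟩

/-- `Fk / k(J)` is separable (`k` perfect, any characteristic) -/
theorem isSeparable_jC [PerfectField k] (hj : jqModC k ∈ Fk)
    [FiniteDimensional k⟮jC hj⟯ ↥Fk] : Algebra.IsSeparable k⟮jC hj⟯ ↥Fk := by
  have : Algebra.IsIntegral k⟮jC hj⟯ ↥Fk := Algebra.IsIntegral.of_finite _ _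
  exact Fermat.Agent.S18.B.SeparableFk.isSeparable_intermediateField Fk (jC hj)
    (transcendental_jC hj) (Fermat.Agent.S28.ThetaAdjoin.thetaL_jqModC_ne_zero k)

/-- principal divisors exist on the fibre over `k` -/
theorem hasPrincipalDivisors_k [IsAlgClosed k] (hj : jqModC k ∈ Fk)
    [FiniteDimensional k⟮jC hj⟯ ↥Fk] : HasPrincipalDivisors k ↥Fk :=
  PrincipalDivisors.hasPrincipalDivisors (isFF_jC hj) (isSeparable_jC hj)

/-- Riemann genus and Hurwitz formula for `J(q)` on the fibre over `k` -/
theorem exists_genus_k [IsAlgClosed k] (hj : jqModC k ∈ Fk)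
    [FiniteDimensional k⟮jC hj⟯ ↥Fk] :
    ∃ g : ℕ, RiemannHyp k ↥Fk g ∧ Defs.HurwitzFormula (isFF_jC hj) (isSeparable_jC hj) g := by
  have := hasPrincipalDivisors_k hj
  exact Hurwitz.exists_riemannHyp_hurwitz (isFF_jC hj) (isSeparable_jC hj)

end KSide

/-! ### characteristic zero -/

section CharZero

universe u w

variable {K : Type w} {F : Type u} [Field K] [Field F] [Algebra K F] [IsAlgClosed K] [CharZero K]
variable {x : F}

omit [IsAlgClosed K] in
theorem isSeparable_of_isFF (hx : IsFF K x) : Algebra.IsSeparable K⟮x⟯ F := by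
  have := hx.finite
  infer_instance

theorem hasPrincipalDivisors_L (hx : IsFF K x) : HasPrincipalDivisors K F :=
  Fermat.Agent.S18.GaussFromHBar.hasPrincipalDivisors_of_isFF hx

theorem exists_genus_L (hx : IsFF K x) :
    ∃ g : ℕ, RiemannHyp K F g ∧ Defs.HurwitzFormula hx (isSeparable_of_isFF hx) g := by
  have := hasPrincipalDivisors_L hx
  exact Hurwitz.exists_riemannHyp_hurwitz hx (isSeparable_of_isFF hx)

omit [CharZero K] in
theorem deg_eq_one (hx : IsFF K x) (P : Place K F) : P.deg = 1 :=
  Fermat.Agent.S24.Ord.deg_eq_one hx P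

end CharZero

/-! ### the inputs of the guarded correspondence -/

section Corr

universe u w

variable {K : Type w} {F F' : Type u} [Field K] [Field F] [Field F'] [Algebra K F] [Algebra K F']
  [IsAlgClosed K] [CharZero K]

open Fermat.Agent.S48.B.Defs.Model Fermat.Agent.S37.Hecke.Integral Fermat.Agent.S37.Hecke.Inputs

/-- **`CorrInputs` for homomorphisms of function fields** over an algebraically closed field of
characteristic zero: `corrOp φ ψ` is the genuine correspondence `ψ_* ∘ φ^*`. -/
theorem corrInputs_of_isFF (φ ψ : F →ₐ[K] F') {x : F} (hx : IsFF K x) {x' : F'}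
    (hx' : IsFF K x') : CorrInputs φ ψ := by
  have := hasPrincipalDivisors_L hx'
  have hφ := isIntegral_of_isFF φ hx.transcendental hx'
  have hψ := isIntegral_of_isFF ψ hx.transcendental hx'
  have hfinφ := finiteAlong_of_isFF φ hx.transcendental hx'
  have hfinψ := finiteAlong_of_isFF ψ hx.transcendental hx'
  exact corrInputs_intro hφ hψ (fundamentalIdentityAlong φ hφ hfinφ hx hx') hfinψ
    (normFormulaAlong ψ hfinψ hx hx')

end Corr

end Fermat.Agent.S48.B.Inj.Basics
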