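import Mathlib
import Fermat.Agent.S18.Final
import Fermat.Agent.S18.A.Hurwitz
import Fermat.Agent.S48.B.Defs.Reduction

/-!
# PROJECT D (S48), part B, block B4 (torsion injects), brick I2: the generic core

`of_redDatum`: for a pair of fields `(F₀, Fk)` (`F₀ ≤ ℚ((q))`, `Fk ≤ k((q))`, `A` a valuation
subring of `ℚ̄`, `π : A →+* k` onto, every prime `p ≠ ℓ` invertible in `k`) with reduction inputs
`h : ReductionInputsAlongG A π F₀ Fk`,
a reduction datum `R` for the place map of `h`, an element `x` of the Gauss ring which is a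
separating variable on both fibres, and the genus inequality, the reduction map
`reductionAlongG A π F₀ Fk` is injective on prime-to-`ℓ` torsion.

This is main's `S18/Assembly` + `S18/Final.of_riemannHyp` with the pair of fields as variables;
every engine (`S18/Core`, `S18/Disc`, `S18/NonSpecial`, `S18/A/*`) is consumed from main untouched.
-/

set_option autoImplicit false
set_option synthInstance.maxHeartbeats 400000

namespace Fermat.Agent.S48.B.Inj.Core

open AlgebraicCurve ModularCurve IntermediateField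
open Fermat.Agent.S18.CoreDefs Fermat.Agent.S18.Core
open Fermat.Agent.S18.NonSpecial Fermat.Agent.S18.NonSpecialAdapter
open Fermat.Agent.S18.A Fermat.Agent.S24.FF
open Fermat.Agent.S48.B.Defs.Reduction

local notation "Kb" => AlgebraicClosure ℚ

variable {A : ValuationSubring (AlgebraicClosure ℚ)} {k : Type*} [Field k] {π : A →+* k}
  {F₀ : IntermediateField ℚ (LaurentSeries ℚ)} {Fk : IntermediateField k (LaurentSeries k)}

/-- the case of a class killed by `p` with `p` invertible in the residue field -/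
theorem prime_case (hπ : Function.Surjective π) (h : ReductionInputsAlongG A π F₀ Fk)
    [HasPrincipalDivisors Kb ↥(laurentBaseChange Kb F₀)]
    [HasPrincipalDivisors k ↥Fk]
    (hdeg : ∀ P : Place Kb ↥(laurentBaseChange Kb F₀), P.deg = 1)
    (R : RedDatum A π h.choose)
    (p : ℕ) (hpk : (p : k) ≠ 0) (hloc : LocalForm R p) (x : R.O)
    (hunram : {Q : Place k ↥Fk |
      ¬ ∃ γ : k,
        Q.ord (R.red x - algebraMap k ↥Fk γ) = 1}.Finite)
    (g : ℕ) (hR : RiemannGe Kb ↥(laurentBaseChange Kb F₀) g)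
    (hG : RigidGeneric k ↥Fk g)
    (z : Pic0 Kb ↥(laurentBaseChange Kb F₀)) (hpz : p • z = 0)
    (hz : reductionAlongG A π F₀ Fk z = 0) : z = 0 := by
  obtain ⟨D, rfl⟩ := Pic0.mk_surjective z
  -- `p • D` is principal
  have hpD : p • (D : Divisor Kb ↥(laurentBaseChange Kb F₀)) ∈
      Divisor.principal (K := Kb) (F := ↥(laurentBaseChange Kb F₀)) := by
    have h1 : Pic0.mk (p • D) = 0 := hpz
    have h2 := (QuotientAddGroup.eq_zero_iff (p • D)).mp h1
    rw [AddSubgroup.mem_addSubgroupOf] at h2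
    simpa using h2
  -- the reduction of `D` is principal
  have hred : Finsupp.mapDomain h.choose (D : Divisor Kb ↥(laurentBaseChange Kb F₀)) ∈
      Divisor.principal (K := k) (F := ↥Fk) := by
    rw [reductionAlongG_mk h D] at hz
    have h2 := (QuotientAddGroup.eq_zero_iff _).mp hz
    rw [AddSubgroup.mem_addSubgroupOf, coe_reductionDegZeroAlongG] at h2
    exact h2
  have hprin := core hdeg A π hπ h.choose
    R p hpk hloc x hunram g hR hG
    (D : Divisor Kb ↥(laurentBaseChange Kb F₀)) D.2 hpD hred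
  exact (QuotientAddGroup.eq_zero_iff D).mpr (by rw [AddSubgroup.mem_addSubgroupOf]; exact hprin)

/-- injectivity on prime-to-`ℓ` torsion from the block inputs -/
theorem of_inputs {ℓ : ℕ} (hπ : Function.Surjective π)
    (hchar : ∀ p : ℕ, ¬ ℓ ∣ p → (p : k) ≠ 0)
    (h : ReductionInputsAlongG A π F₀ Fk)
    [HasPrincipalDivisors Kb ↥(laurentBaseChange Kb F₀)]
    [HasPrincipalDivisors k ↥Fk]
    (hdeg : ∀ P : Place Kb ↥(laurentBaseChange Kb F₀), P.deg = 1)
    (R : RedDatum A π h.choose)
    (hloc : ∀ p : ℕ, (p : k) ≠ 0 → LocalForm R p) (x : R.O)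
    (hunram : {Q : Place k ↥Fk |
      ¬ ∃ γ : k,
        Q.ord (R.red x - algebraMap k ↥Fk γ) = 1}.Finite)
    (g : ℕ) (hR : RiemannGe Kb ↥(laurentBaseChange Kb F₀) g)
    (hG : RigidGeneric k ↥Fk g)
    (m : ℕ) (hm : ¬ ℓ ∣ m) (z : Pic0 Kb ↥(laurentBaseChange Kb F₀)) (hmz : m • z = 0)
    (hz : reductionAlongG A π F₀ Fk z = 0) : z = 0 := by
  induction m using Nat.strong_induction_on generalizing z with
  | _ m ih =>
    rcases Nat.lt_or_ge m 2 with hm2 | hm2
    · interval_cases m
      · exact absurd (dvd_zero ℓ) hm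
      · rwa [one_nsmul] at hmz
    · set p := m.minFac with hp
      have hpprime : p.Prime := Nat.minFac_prime (by omega)
      obtain ⟨m', hm'⟩ := Nat.minFac_dvd m
      rw [← hp] at hm'
      have hℓp : ¬ ℓ ∣ p := fun hd => hm (hd.trans (Nat.minFac_dvd m))
      have hℓm' : ¬ ℓ ∣ m' := fun hd => hm (hm' ▸ Dvd.dvd.mul_left hd p)
      have hpk : (p : k) ≠ 0 := hchar p hℓp
      have hm'pos : 0 < m' := by
        rcases Nat.eq_zero_or_pos m' with h0 | h0
        · rw [h0, mul_zero] at hm'; omega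
        · exact h0
      have hm'lt : m' < m := by
        rw [hm']
        exact lt_mul_of_one_lt_left hm'pos hpprime.one_lt
      have hz' : m' • z = 0 := by
        refine prime_case hπ h hdeg R p hpk (hloc p hpk) x hunram g hR hG (m' • z) ?_ ?_
        · rw [← mul_nsmul', ← hm']; exact hmz
        · rw [map_nsmul, hz, smul_zero]
      exact ih m' hm'lt hℓm' z hz' hz

/-- **[B-inj], generic form**: the reduction map of a pair `(F₀, Fk)` is injective on prime-to-`ℓ`
torsion, from a reduction datum for the place map, a common separating variable and the genus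
inequality. -/
theorem of_redDatum {ℓ : ℕ} (hπ : Function.Surjective π)
    (hchar : ∀ p : ℕ, ¬ ℓ ∣ p → (p : k) ≠ 0) [IsAlgClosed k]
    (h : ReductionInputsAlongG A π F₀ Fk)
    (R : RedDatum A π h.choose) (x : R.O)
    (hxL : IsFF Kb ((x : ↥(laurentBaseChange Kb F₀))))
    (hxk : IsFF k (R.red x))
    (hsep : Algebra.IsSeparable k⟮R.red x⟯ ↥Fk)
    (hg : ∀ gL gk : ℕ, RiemannHyp Kb ↥(laurentBaseChange Kb F₀) gL →
      RiemannHyp k ↥Fk gk → gL ≤ gk)
    (m : ℕ) (hm : ¬ ℓ ∣ m) (z : Pic0 Kb ↥(laurentBaseChange Kb F₀)) (hmz : m • z = 0)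
    (hz : reductionAlongG A π F₀ Fk z = 0) : z = 0 := by
  have hPDL : HasPrincipalDivisors Kb ↥(laurentBaseChange Kb F₀) :=
    Fermat.Agent.S18.GaussFromHBar.hasPrincipalDivisors_of_isFF hxL
  have hPDk : HasPrincipalDivisors k ↥Fk :=
    PrincipalDivisors.hasPrincipalDivisors hxk hsep
  have hsepL : Algebra.IsSeparable Kb⟮((x : ↥(laurentBaseChange Kb F₀)))⟯
      ↥(laurentBaseChange Kb F₀) := by
    have := hxL.finite
    infer_instance
  obtain ⟨gL, hL, -⟩ := RiemannX1.exists_riemannHyp_of_sep hxL hsepL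
  obtain ⟨gk, hk, -⟩ := RiemannX1.exists_riemannHyp_of_sep hxk hsep
  have hgLk : gL ≤ gk := hg gL gk hL hk
  have hdeg : ∀ P : Place Kb ↥(laurentBaseChange Kb F₀), P.deg = 1 :=
    fun P => Fermat.Agent.S24.Ord.deg_eq_one hxL P
  exact of_inputs hπ hchar h hdeg R
    (fun p hpk => Fermat.Agent.S18.Disc.localForm hdeg hπ R p hpk)
    x (Unram.finite_not_simple hxk hsep) gk (riemannGe_of_riemannHyp hL hgLk)
    (rigidGeneric_of_riemannHyp hk le_rfl) m hm z hmz hz

end Fermat.Agent.S48.B.Inj.Core
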