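import Mathlib
import Fermat.Agent.S18.ResidueBasics
import Fermat.Agent.S48.B.Inj.Basics
import Fermat.Agent.S48.B.Inj.Core
import Fermat.Agent.S48.B.Red.Gauss1
import Fermat.Agent.S48.B.Red.Seams

/-!
# PROJECT D (S48), part B, block B4, brick I3: clause (R4) of `HasReduction1` for `X₁(M)`

`reduction1 A M : J1 M →+ J1C M κ(A)` is injective on the prime-to-`ℓ` torsion, `A` over `ℓ ∤ M`,
from the seams

* `ReductionInputs1 A M`          ([B-red], block B3),
* `IsFF ℚ̄ (jgen1 M)`              (first half of `B1.Seams.Deg1 M`),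
* `[κ(A)(X₁(M)) : κ(A)(j̄)] < ∞`   (first half of `Red.Seams.IgusaDeg M` at `A`),
* `Red.Seams.GenusLe1 M A`        (tame: block B3/T; wild: `GenusLeWild1`),

through the generic `Inj.Core.of_redDatum` and the reduction datum `Gauss1.redDatum₁` of block B3.
The separability of the special fibre over `κ(A)(j̄)` is free (`Inj.Basics.isSeparable_jC`).
-/

set_option autoImplicit false

namespace Fermat.Agent.S48.B.Inj.X1

open AlgebraicCurve ModularCurve IntermediateField IsLocalRing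
open Fermat.Agent.S24.FF
open Fermat.Agent.S48.B.Defs.Model Fermat.Agent.S48.B.Defs.Reduction
open Fermat.Agent.S48.B.B1.Seams (jgen1)
open Fermat.Agent.S48.B.Red.Seams (jC GenusLe1 IgusaDeg GenusLeWild1)
open Fermat.Agent.S48.B.Red.Gauss1

local notation "Kb" => AlgebraicClosure ℚ

variable {M : ℕ} [NeZero M] {A : ValuationSubring Kb}

/-- `j̄` is a separating variable of the special fibre, from the finiteness half of [B-igusa] -/
theorem isFF_jC
    (hfin : FiniteDimensional ↥(ResidueField A)⟮jC M (ResidueField A)⟯ (F1C M (ResidueField A))) :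
    IsFF (ResidueField A) (jC M (ResidueField A)) :=
  ⟨Basics.transcendental_jC (Fermat.Agent.S48.B.Red.Seams.jqModC_mem_F1C M (ResidueField A)), hfin⟩

/-- the special fibre is separable over `κ(A)(j̄)` -/
theorem isSeparable_jC
    (hfin : FiniteDimensional ↥(ResidueField A)⟮jC M (ResidueField A)⟯ (F1C M (ResidueField A))) :
    Algebra.IsSeparable ↥(ResidueField A)⟮jC M (ResidueField A)⟯ (F1C M (ResidueField A)) := by
  have := Fermat.Agent.S18.ResidueBasics.isAlgClosed_residueField A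
  exact @Basics.isSeparable_jC (ResidueField A) _ (F1C M (ResidueField A)) _
    (Fermat.Agent.S48.B.Red.Seams.jqModC_mem_F1C M (ResidueField A)) hfin

/-- **[B-inj] for `X₁(M)`, one valuation subring**: `reduction1 A M` is injective on the
prime-to-`ℓ` torsion of `J₁(M)(ℚ̄)`. -/
theorem torsion_injective {ℓ : ℕ} (hℓ : ℓ.Prime) (hA : A.LiesOverPrime ℓ)
    (hxL : IsFF Kb (jgen1 M)) (h : ReductionInputs1 A M)
    (hfin : FiniteDimensional ↥(ResidueField A)⟮jC M (ResidueField A)⟯ (F1C M (ResidueField A)))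
    (hg : GenusLe1 M A)
    (m : ℕ) (hm : ¬ ℓ ∣ m) (z : J1 M) (hmz : m • z = 0) (hz : reduction1 A M z = 0) : z = 0 := by
  have : Fact ℓ.Prime := ⟨hℓ⟩
  have := Fermat.Agent.S18.ResidueBasics.isAlgClosed_residueField A
  have hxk : IsFF (ResidueField A) ((redDatum₁ hxL h).red ⟨jgen1 M, jgen1_mem_O hxL h⟩) := by
    rw [red_jgen1 hxL h]; exact isFF_jC hfin
  have hsep : Algebra.IsSeparable
      ↥(ResidueField A)⟮(redDatum₁ hxL h).red ⟨jgen1 M, jgen1_mem_O hxL h⟩⟯
      (F1C M (ResidueField A)) := by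
    rw [red_jgen1 hxL h]; exact isSeparable_jC hfin
  exact Core.of_redDatum (ℓ := ℓ) residue_surjective
    (fun p hp => Fermat.Agent.S18.ResidueBasics.natCast_ne_zero_of_not_dvd A hA hp)
    h (redDatum₁ hxL h) ⟨jgen1 M, jgen1_mem_O hxL h⟩ hxL hxk hsep hg m hm z hmz hz

/-- clause **(R4)** of `Defs.Reduction.HasReduction1` in its literal form, for `red = reduction1 A M`
and a prime `p ≠ ℓ` -/
theorem r4 {ℓ p : ℕ} (hℓ : ℓ.Prime) (hp : p.Prime) (hℓp : ℓ ≠ p) (hA : A.LiesOverPrime ℓ)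
    (hxL : IsFF Kb (jgen1 M)) (h : ReductionInputs1 A M)
    (hfin : FiniteDimensional ↥(ResidueField A)⟮jC M (ResidueField A)⟯ (F1C M (ResidueField A)))
    (hg : GenusLe1 M A) :
    ∀ x : J1 M, (∃ n : ℕ, p ^ n • x = 0) → reduction1 A M x = 0 → x = 0 := by
  rintro x ⟨n, hn⟩ hx
  refine torsion_injective hℓ hA hxL h hfin hg (p ^ n) ?_ x hn hx
  intro hd
  exact hℓp ((Nat.prime_dvd_prime_iff_eq hℓ hp).mp (hℓ.dvd_of_dvd_pow hd))

/-- **the seam (R4) of block B4**, in the shape `Red.Glue1.Inj1 M p` consumed by the glue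
`Red.Glue1.hasReduction1All_of` of block B3 (`p` prime): at every valuation subring over every
`ℓ ∤ M`, `ℓ ≠ p`. -/
theorem inj1_of {p : ℕ} (hp : p.Prime) (hxL : IsFF Kb (jgen1 M))
    (hI : Fermat.Agent.S48.B.Red.Seams.IgusaDeg M)
    (hR : Fermat.Agent.S48.B.Red.Seams.RedInputs1 M)
    (hG : ∀ ℓ : ℕ, ℓ.Prime → ¬ ℓ ∣ M → ∀ A : ValuationSubring Kb, A.LiesOverPrime ℓ →
      GenusLe1 M A) :
    ∀ ℓ : ℕ, ℓ.Prime → ¬ ℓ ∣ M → ℓ ≠ p → ∀ A : ValuationSubring Kb, A.LiesOverPrime ℓ →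
      ∀ x : J1 M, (∃ n : ℕ, p ^ n • x = 0) → reduction1 A M x = 0 → x = 0 :=
  fun ℓ hℓ hℓM hℓp A hA =>
    r4 hℓ hp hℓp hA hxL (hR ℓ hℓ hℓM A hA) (hI ℓ hℓ hℓM A hA).1 (hG ℓ hℓ hℓM A hA)

end Fermat.Agent.S48.B.Inj.X1
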