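import Mathlib
import Fermat.Agent.S48.B.Inj.X1
import Fermat.Agent.S48.B.Red.Inputs1

/-!
# PROJECT D (S48), part B, block B4: the seam (R4) from the primitive seams of the geometric blocks

`inj1` : `Red.Glue1.Inj1 M p` (spelled out literally, so that this file does not import the glue)
from exactly the hypotheses of `Red.Inputs1.redInputs1`:

* `Red.Seams.IgusaDeg M` (B2), `B1.Seams.Deg1 M`, `Red.Seams.Ram1 M` (B1),
* `Red.Seams.GenusLeWild1 M` (B3/W + B3/C + B4/K3),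
* `Red.Inputs1.BasesOut M A` at every `A` over every `ℓ ∤ M` (B3/Bases1).

The genus inequality at `ℓ ≠ 2, 3` is `Red.Inputs1.genusLe1_tame`.
-/

set_option autoImplicit false

namespace Fermat.Agent.S48.B.Inj.Final1

open Fermat.Agent.S48.B.Defs.Model Fermat.Agent.S48.B.Defs.Reduction
open Fermat.Agent.S48.B.Red.Seams Fermat.Agent.S48.B.Red.Inputs1
open Fermat.Agent.S48.B.B1.Seams (Deg1)

local notation "Kb" => AlgebraicClosure ℚ

variable {M : ℕ} [NeZero M]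

/-- the inequality of genera at every `A` over every `ℓ ∤ M` -/
theorem genusLe1_all (hdeg : IgusaDeg M) (hD : Deg1 M) (hRam : Ram1 M) (hW : GenusLeWild1 M)
    (hB : ∀ ℓ : ℕ, ℓ.Prime → ¬ ℓ ∣ M → ∀ A : ValuationSubring Kb, A.LiesOverPrime ℓ →
      BasesOut M A) :
    ∀ ℓ : ℕ, ℓ.Prime → ¬ ℓ ∣ M → ∀ A : ValuationSubring Kb, A.LiesOverPrime ℓ →
      GenusLe1 M A := by
  intro ℓ hℓ hℓM A hA
  obtain ⟨hrep, -⟩ := (hB ℓ hℓ hℓM A hA).exists_rep
  by_cases h23 : ℓ = 2 ∨ ℓ = 3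
  · exact hW ℓ hℓ hℓM h23 A hA
  · exact genusLe1_tame hdeg hD hRam hℓ hℓM (fun h => h23 (Or.inl h)) (fun h => h23 (Or.inr h))
      hA hrep

/-- **[B-inj] for `X₁(M)`**: `reduction1 A M` is injective on the `p`-power torsion of `J₁(M)(ℚ̄)` at
every `A` over every `ℓ ∤ M`, `ℓ ≠ p` (`p` prime); the conclusion is `Red.Glue1.Inj1 M p`. -/
theorem inj1 {p : ℕ} (hp : p.Prime) (hdeg : IgusaDeg M) (hD : Deg1 M) (hRam : Ram1 M)
    (hW : GenusLeWild1 M)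
    (hB : ∀ ℓ : ℕ, ℓ.Prime → ¬ ℓ ∣ M → ∀ A : ValuationSubring Kb, A.LiesOverPrime ℓ →
      BasesOut M A) :
    ∀ ℓ : ℕ, ℓ.Prime → ¬ ℓ ∣ M → ℓ ≠ p → ∀ A : ValuationSubring Kb, A.LiesOverPrime ℓ →
      ∀ x : J1 M, (∃ n : ℕ, p ^ n • x = 0) → reduction1 A M x = 0 → x = 0 :=
  X1.inj1_of hp hD.1 hdeg (redInputs1 hdeg hD hRam hW hB) (genusLe1_all hdeg hD hRam hW hB)

end Fermat.Agent.S48.B.Inj.Final1
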